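/-
The analytic Atkin–Lehner involution `W_ℓ` of `F_{Nℓ}` (helper64), for `ℓ ∤ N` prime.

* `exists_atkinLehner` : a ring endomorphism `w` of `F_{Nℓ}` with `w ∘ w = id`, fixing `ℚ̄`,
  and `w (j_e) = j_{swap e}` (`swap e = e / ℓ` if `ℓ ∣ e`, `= e ℓ` otherwise);
* `Theta_swapRen` : on polynomials in the generators `j_e` it is composition with
  `τ ↦ γ₀ • (ℓ τ)`, `γ₀ = [[x, y], [N, ℓ]]`, `ℓ x - N y = 1`;
* `exists_atkinLehner_equiv` : the same `w` as a ring automorphism, together with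
  `w ∘ α = β`, `w ∘ β = α` for the two degeneracy maps `α, β : F_N → F_{Nℓ}`
  (`heckeAlphaBar`, `heckeBetaBar`);
* `norm_alpha_beta_eq` : `N_α(β c) = N_β(α c)`.

(The formal version of the swap, without the analytic description, is the landed
`S42.H13.exists_atkinLehner_swap`.)
-/
import Mathlib
import Fermat.Agent.S24.Ker
import Fermat.Agent.S24.Transl
import Fermat.Agent.S24.Bridge
import Fermat.Agent.S24.JFacts
import Fermat.Agent.S24.H68.Translates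
import Fermat.Agent.S37.H65.Conj.Norm

set_option autoImplicit false
set_option linter.style.haveILetI false
set_option linter.unusedSectionVars false

open AlgebraicCurve ModularCurve Fermat.Agent.S24 UpperHalfPlane
open scoped MatrixGroups

noncomputable section

namespace Fermat.Agent.S29.H64

variable (N ℓ : ℕ) [NeZero N] [NeZero ℓ]

/-! ### The involution of the divisors of `N ℓ` -/

/-- `e ↦ e / ℓ` if `ℓ ∣ e`, and `e ↦ e ℓ` otherwise. -/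
def swapDiv (e : (N * ℓ).divisors) : (N * ℓ).divisors :=
  if h : ℓ ∣ (e : ℕ) then
    ⟨(e : ℕ) / ℓ, Nat.mem_divisors.mpr
      ⟨(Nat.div_dvd_of_dvd h).trans (Nat.dvd_of_mem_divisors e.2), NeZero.ne _⟩⟩
  else if h' : (e : ℕ) * ℓ ∣ N * ℓ then
    ⟨(e : ℕ) * ℓ, Nat.mem_divisors.mpr ⟨h', NeZero.ne _⟩⟩
  else e

variable {N ℓ}

theorem coe_swapDiv_of_dvd {e : (N * ℓ).divisors} (h : ℓ ∣ (e : ℕ)) :
    ((swapDiv N ℓ e : (N * ℓ).divisors) : ℕ) = (e : ℕ) / ℓ := by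
  rw [swapDiv, dif_pos h]

theorem dvd_of_not_dvd (hℓ : ℓ.Prime) {e : (N * ℓ).divisors} (h : ¬ ℓ ∣ (e : ℕ)) :
    (e : ℕ) ∣ N :=
  ((hℓ.coprime_iff_not_dvd.mpr h).symm).dvd_of_dvd_mul_right (Nat.dvd_of_mem_divisors e.2)

theorem coe_swapDiv_of_not_dvd (hℓ : ℓ.Prime) {e : (N * ℓ).divisors} (h : ¬ ℓ ∣ (e : ℕ)) :
    ((swapDiv N ℓ e : (N * ℓ).divisors) : ℕ) = (e : ℕ) * ℓ := by
  rw [swapDiv, dif_neg h, dif_pos (Nat.mul_dvd_mul_right (dvd_of_not_dvd hℓ h) ℓ)]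

theorem div_dvd_of_dvd (hℓ : ℓ.Prime) {e : (N * ℓ).divisors} (h : ℓ ∣ (e : ℕ)) :
    (e : ℕ) / ℓ ∣ N := by
  obtain ⟨k, hk⟩ := h
  have h1 : ℓ * k ∣ N * ℓ := hk ▸ Nat.dvd_of_mem_divisors e.2
  rw [hk, Nat.mul_div_cancel_left k hℓ.pos]
  rw [mul_comm N ℓ] at h1
  exact Nat.dvd_of_mul_dvd_mul_left hℓ.pos h1

theorem swapDiv_swapDiv (hℓ : ℓ.Prime) (hℓN : ¬ ℓ ∣ N) (e : (N * ℓ).divisors) :
    swapDiv N ℓ (swapDiv N ℓ e) = e := by
  apply Subtype.ext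
  by_cases h : ℓ ∣ (e : ℕ)
  · have h1 : ¬ ℓ ∣ ((swapDiv N ℓ e : (N * ℓ).divisors) : ℕ) := by
      rw [coe_swapDiv_of_dvd h]
      exact fun h2 => hℓN (h2.trans (div_dvd_of_dvd hℓ h))
    rw [coe_swapDiv_of_not_dvd hℓ h1, coe_swapDiv_of_dvd h, Nat.div_mul_cancel h]
  · have h1 : ℓ ∣ ((swapDiv N ℓ e : (N * ℓ).divisors) : ℕ) := by
      rw [coe_swapDiv_of_not_dvd hℓ h]
      exact dvd_mul_left ℓ _
    rw [coe_swapDiv_of_dvd h1, coe_swapDiv_of_not_dvd hℓ h, Nat.mul_div_cancel _ hℓ.pos]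

/-! ### The Atkin–Lehner map on the upper half plane -/

theorem Jd_congr {d d' : ℕ} [NeZero d] [NeZero d'] (h : d = d') : Jd d = Jd d' := by
  subst h
  rfl

/-- The matrix `[[a, b], [c, d]]` of determinant one. -/
def mkSL (a b c d : ℤ) (h : a * d - b * c = 1) : SL(2, ℤ) :=
  ⟨!![a, b; c, d], by rw [Matrix.det_fin_two_of]; exact h⟩

theorem coe_mkSL_smul (a b c d : ℤ) (h : a * d - b * c = 1) (τ : ℍ) :
    ((mkSL a b c d h • τ : ℍ) : ℂ) = ((a : ℂ) * τ + (b : ℂ)) / ((c : ℂ) * τ + (d : ℂ)) := by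
  rw [H68.coe_smul_eq]
  rfl

theorem mkSL_denom_ne (a b c d : ℤ) (h : a * d - b * c = 1) (τ : ℍ) :
    (c : ℂ) * τ + (d : ℂ) ≠ 0 :=
  H68.denom_ne (mkSL a b c d h) τ

variable (N ℓ)

/-- `τ ↦ γ₀ • (ℓ τ)`, `γ₀ = [[x, y], [N, ℓ]]`. -/
def alH (x y : ℤ) (hxy : x * (ℓ : ℤ) - y * (N : ℤ) = 1) (τ : ℍ) : ℍ :=
  mkSL x y N ℓ hxy • levelMul ℓ τ

variable {N ℓ}

/-- `d · W τ = [[x, d y], [N / d, ℓ]] • (d ℓ τ)` for `d ∣ N`. -/
theorem levelMul_alH (x y : ℤ) (hxy : x * (ℓ : ℤ) - y * (N : ℤ) = 1) (d m : ℕ) [NeZero d]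
    (hdm : N = d * m) (τ : ℍ) :
    levelMul d (alH N ℓ x y hxy τ) =
      mkSL x (d * y) m ℓ (by rw [← hxy, hdm]; push_cast; ring) • levelMul (d * ℓ) τ := by
  apply UpperHalfPlane.ext
  rw [coe_levelMul, alH, coe_mkSL_smul, coe_mkSL_smul, coe_levelMul, coe_levelMul]
  have h1 := mkSL_denom_ne x y N ℓ hxy (levelMul ℓ τ)
  have h2 := mkSL_denom_ne x (d * y) m ℓ (by rw [← hxy, hdm]; push_cast; ring)
    (levelMul (d * ℓ) τ)
  rw [coe_levelMul] at h1 h2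
  have hN : ((N : ℤ) : ℂ) = (d : ℂ) * (m : ℂ) := by rw [hdm]; push_cast; ring
  rw [hN] at h1 ⊢
  push_cast at h1 h2 ⊢
  field_simp

/-- `d ℓ · W τ = [[ℓ x, d y], [N / d, 1]] • (d τ)` for `d ∣ N`. -/
theorem levelMul_mul_alH (x y : ℤ) (hxy : x * (ℓ : ℤ) - y * (N : ℤ) = 1) (d m : ℕ) [NeZero d]
    (hdm : N = d * m) (τ : ℍ) :
    levelMul (d * ℓ) (alH N ℓ x y hxy τ) =
      mkSL (ℓ * x) (d * y) m 1 (by rw [hdm] at hxy; push_cast at hxy ⊢; linarith) •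
        levelMul d τ := by
  apply UpperHalfPlane.ext
  rw [coe_levelMul, alH, coe_mkSL_smul, coe_mkSL_smul, coe_levelMul, coe_levelMul]
  have h1 := mkSL_denom_ne x y N ℓ hxy (levelMul ℓ τ)
  have h2 := mkSL_denom_ne (ℓ * x) (d * y) m 1
    (by rw [hdm] at hxy; push_cast at hxy ⊢; linarith) (levelMul d τ)
  rw [coe_levelMul] at h1 h2
  have hN : ((N : ℤ) : ℂ) = (d : ℂ) * (m : ℂ) := by rw [hdm]; push_cast; ring
  rw [hN] at h1 ⊢
  push_cast at h1 h2 ⊢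
  have hℓ0 : (ℓ : ℂ) ≠ 0 := Nat.cast_ne_zero.mpr (NeZero.ne ℓ)
  field_simp

variable (N ℓ)

theorem Jd_alH (hℓ : ℓ.Prime) (x y : ℤ) (hxy : x * (ℓ : ℤ) - y * (N : ℤ) = 1)
    (e : (N * ℓ).divisors) (τ : ℍ) :
    Jd (e : ℕ) (alH N ℓ x y hxy τ) = Jd ((swapDiv N ℓ e : (N * ℓ).divisors) : ℕ) τ := by
  by_cases h : ℓ ∣ (e : ℕ)
  · obtain ⟨m, hm⟩ := div_dvd_of_dvd hℓ h
    haveI : NeZero ((e : ℕ) / ℓ) :=
      ⟨(Nat.div_pos (Nat.le_of_dvd (Nat.pos_of_mem_divisors e.2) h) hℓ.pos).ne'⟩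
    have he : (e : ℕ) = (e : ℕ) / ℓ * ℓ := (Nat.div_mul_cancel h).symm
    rw [Jd_congr he, Jd_congr (coe_swapDiv_of_dvd h)]
    show Jfun (levelMul ((e : ℕ) / ℓ * ℓ) (alH N ℓ x y hxy τ)) = Jfun (levelMul ((e : ℕ) / ℓ) τ)
    rw [levelMul_mul_alH x y hxy ((e : ℕ) / ℓ) m hm τ, Jfun_smul]
  · obtain ⟨m, hm⟩ := dvd_of_not_dvd hℓ h
    rw [Jd_congr (coe_swapDiv_of_not_dvd hℓ h)]
    show Jfun (levelMul (e : ℕ) (alH N ℓ x y hxy τ)) = Jfun (levelMul ((e : ℕ) * ℓ) τ)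
    rw [levelMul_alH x y hxy (e : ℕ) m hm τ, Jfun_smul]

/-- The renaming `X_e ↦ X_{swap e}`. -/
def swapRen : MvPolynomial ((N * ℓ).divisors) Kbar →ₐ[Kbar] MvPolynomial ((N * ℓ).divisors) Kbar :=
  MvPolynomial.rename (swapDiv N ℓ)

theorem swapRen_swapRen (hℓ : ℓ.Prime) (hℓN : ¬ ℓ ∣ N)
    (P : MvPolynomial ((N * ℓ).divisors) Kbar) : swapRen N ℓ (swapRen N ℓ P) = P := by
  rw [swapRen, MvPolynomial.rename_rename]
  have : swapDiv N ℓ ∘ swapDiv N ℓ = id := funext (swapDiv_swapDiv hℓ hℓN)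
  rw [this, MvPolynomial.rename_id_apply]

theorem Theta_swapRen (hℓ : ℓ.Prime) (x y : ℤ) (hxy : x * (ℓ : ℤ) - y * (N : ℤ) = 1)
    (P : MvPolynomial ((N * ℓ).divisors) Kbar) (τ : ℍ) :
    Theta (N * ℓ) (swapRen N ℓ P) τ = Theta (N * ℓ) P (alH N ℓ x y hxy τ) := by
  induction P using MvPolynomial.induction_on with
  | C a => rw [swapRen, MvPolynomial.rename_C, Theta_C]
  | add p q hp hq => rw [map_add, map_add, Pi.add_apply, hp, hq, map_add, Pi.add_apply]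
  | mul_X p d hp =>
    rw [map_mul, map_mul, Pi.mul_apply, hp, map_mul, Pi.mul_apply]
    congr 1
    rw [swapRen, MvPolynomial.rename_X, Theta_X, Theta_X, Jd_alH N ℓ hℓ]

theorem exists_bezout (hℓ : ℓ.Prime) (hℓN : ¬ ℓ ∣ N) :
    ∃ x y : ℤ, x * (ℓ : ℤ) - y * (N : ℤ) = 1 := by
  have hc : IsCoprime (ℓ : ℤ) (N : ℤ) :=
    Nat.isCoprime_iff_coprime.mpr ((Nat.Prime.coprime_iff_not_dvd hℓ).mpr hℓN)
  obtain ⟨a, b, hab⟩ := hc
  exact ⟨a, -b, by linarith⟩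

theorem evF_swapRen_eq_zero (hℓ : ℓ.Prime) (hℓN : ¬ ℓ ∣ N)
    {P : MvPolynomial ((N * ℓ).divisors) Kbar} (h : evF (N * ℓ) P = 0) :
    evF (N * ℓ) (swapRen N ℓ P) = 0 := by
  obtain ⟨x, y, hxy⟩ := exists_bezout N ℓ hℓ hℓN
  rw [← Theta_eq_zero_iff] at h ⊢
  funext τ
  rw [Theta_swapRen N ℓ hℓ x y hxy, h]
  rfl

theorem evF_swapRen_eq_zero_iff (hℓ : ℓ.Prime) (hℓN : ¬ ℓ ∣ N)
    (P : MvPolynomial ((N * ℓ).divisors) Kbar) :
    evF (N * ℓ) (swapRen N ℓ P) = 0 ↔ evF (N * ℓ) P = 0 :=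
  ⟨fun h => by simpa [swapRen_swapRen N ℓ hℓ hℓN] using evF_swapRen_eq_zero N ℓ hℓ hℓN h,
    evF_swapRen_eq_zero N ℓ hℓ hℓN⟩

/-- The Atkin–Lehner involution of `F_{Nℓ}`: `w (j_e) = j_{swap e}`. -/
theorem exists_atkinLehner (hℓ : ℓ.Prime) (hℓN : ¬ ℓ ∣ N) :
    ∃ w : FF (N * ℓ) →+* FF (N * ℓ),
      (∀ f, w (w f) = f) ∧
      (∀ a : Kbar, w (algebraMap Kbar (FF (N * ℓ)) a) = algebraMap Kbar (FF (N * ℓ)) a) ∧
      ∀ e : (N * ℓ).divisors, w (jF (N * ℓ) e) = jF (N * ℓ) (swapDiv N ℓ e) := by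
  obtain ⟨w, hw, -⟩ := exists_unique_extension (evF (N * ℓ)) (evF_frac (N * ℓ))
    (((evF (N * ℓ) : MvPolynomial ((N * ℓ).divisors) Kbar →ₐ[Kbar] FF (N * ℓ)) :
        MvPolynomial ((N * ℓ).divisors) Kbar →+* FF (N * ℓ)).comp
      ((swapRen N ℓ : MvPolynomial ((N * ℓ).divisors) Kbar →ₐ[Kbar]
          MvPolynomial ((N * ℓ).divisors) Kbar) :
        MvPolynomial ((N * ℓ).divisors) Kbar →+* MvPolynomial ((N * ℓ).divisors) Kbar))
    (fun P => evF_swapRen_eq_zero_iff N ℓ hℓ hℓN P)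
  have hw' : ∀ P, w (evF (N * ℓ) P) = evF (N * ℓ) (swapRen N ℓ P) := fun P => hw P
  refine ⟨w, ?_, ?_, ?_⟩
  · intro f
    obtain ⟨P, Q, -, rfl⟩ := evF_frac (N * ℓ) f
    rw [map_div₀, map_div₀, hw', hw', hw', hw', swapRen_swapRen N ℓ hℓ hℓN,
      swapRen_swapRen N ℓ hℓ hℓN]
  · intro a
    have : algebraMap Kbar (FF (N * ℓ)) a = evF (N * ℓ) (MvPolynomial.C a) := by
      rw [← MvPolynomial.algebraMap_eq, AlgHom.commutes]
    rw [this, hw', swapRen, MvPolynomial.rename_C]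
  · intro e
    have : ∀ e : (N * ℓ).divisors, jF (N * ℓ) e = evF (N * ℓ) (MvPolynomial.X e) :=
      fun e => by simp [evF]
    rw [this, this, hw', swapRen, MvPolynomial.rename_X]

/-! ### The swap of the two degeneracy maps -/

/-- The divisor `d` of `N` as a divisor of `N ℓ`. -/
def incDiv (d : N.divisors) : (N * ℓ).divisors :=
  ⟨(d : ℕ), Nat.mem_divisors.mpr
    ⟨(Nat.dvd_of_mem_divisors d.2).trans (dvd_mul_right N ℓ), NeZero.ne _⟩⟩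

/-- The divisor `d ℓ` of `N ℓ`. -/
def mulDiv (d : N.divisors) : (N * ℓ).divisors :=
  ⟨(d : ℕ) * ℓ, Nat.mem_divisors.mpr
    ⟨Nat.mul_dvd_mul_right (Nat.dvd_of_mem_divisors d.2) ℓ, NeZero.ne _⟩⟩

theorem heckeAlphaBar_jF (d : N.divisors) :
    heckeAlphaBar Kbar N ℓ (jF N d) = jF (N * ℓ) (incDiv N ℓ d) :=
  Subtype.ext rfl

theorem heckeBetaBar_jF (d : N.divisors) :
    heckeBetaBar Kbar N ℓ (jF N d) = jF (N * ℓ) (mulDiv N ℓ d) := by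
  apply Subtype.ext
  show qExpand Kbar ℓ (coeffEmb Kbar (qExpand ℚ (d : ℕ) jq))
    = coeffEmb Kbar (qExpand ℚ ((d : ℕ) * ℓ) jq)
  have h : ∀ (d : ℕ) [NeZero d], coeffEmb Kbar (qExpand ℚ d jq) = qExpand Kbar d (jqModC Kbar) :=
    fun d _ => coeffMap_jqNModC (algebraMap ℚ Kbar) d
  rw [h (d : ℕ), h ((d : ℕ) * ℓ), qExpand_qExpand]
  exact qExpand_congr (mul_comm ℓ (d : ℕ)) _

theorem not_dvd_of_divisor (hℓN : ¬ ℓ ∣ N) (d : N.divisors) : ¬ ℓ ∣ (d : ℕ) :=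
  fun h => hℓN (h.trans (Nat.dvd_of_mem_divisors d.2))

theorem swapDiv_incDiv (hℓ : ℓ.Prime) (hℓN : ¬ ℓ ∣ N) (d : N.divisors) :
    swapDiv N ℓ (incDiv N ℓ d) = mulDiv N ℓ d :=
  Subtype.ext (coe_swapDiv_of_not_dvd hℓ (e := incDiv N ℓ d) (not_dvd_of_divisor N ℓ hℓN d))

theorem swapDiv_mulDiv (hℓ : ℓ.Prime) (hℓN : ¬ ℓ ∣ N) (d : N.divisors) :
    swapDiv N ℓ (mulDiv N ℓ d) = incDiv N ℓ d := by
  rw [← swapDiv_incDiv N ℓ hℓ hℓN, swapDiv_swapDiv hℓ hℓN]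

/-- Two ring homomorphisms out of `F_N` agree as soon as they agree on `ℚ̄` and on the `j_d`. -/
theorem ringHom_ext_FF {Ω : Type*} [Field Ω] (g₁ g₂ : FF N →+* Ω)
    (hK : ∀ a : Kbar, g₁ (algebraMap Kbar (FF N) a) = g₂ (algebraMap Kbar (FF N) a))
    (hgen : ∀ d : N.divisors, g₁ (jF N d) = g₂ (jF N d)) : g₁ = g₂ := by
  have key : g₁.comp ((evF N : MvPolynomial (N.divisors) Kbar →ₐ[Kbar] FF N) :
        MvPolynomial (N.divisors) Kbar →+* FF N)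
      = g₂.comp ((evF N : MvPolynomial (N.divisors) Kbar →ₐ[Kbar] FF N) :
        MvPolynomial (N.divisors) Kbar →+* FF N) := by
    apply MvPolynomial.ringHom_ext
    · intro a
      have : evF N (MvPolynomial.C a) = algebraMap Kbar (FF N) a := by
        rw [← MvPolynomial.algebraMap_eq, AlgHom.commutes]
      show g₁ (evF N (MvPolynomial.C a)) = g₂ (evF N (MvPolynomial.C a))
      rw [this, hK]
    · intro d
      have : evF N (MvPolynomial.X d) = jF N d := by simp [evF]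
      show g₁ (evF N (MvPolynomial.X d)) = g₂ (evF N (MvPolynomial.X d))
      rw [this, hgen]
  have key' : ∀ P : MvPolynomial (N.divisors) Kbar, g₁ (evF N P) = g₂ (evF N P) :=
    fun P => RingHom.congr_fun key P
  apply RingHom.ext
  intro f
  obtain ⟨P, Q, -, rfl⟩ := evF_frac N f
  rw [map_div₀, map_div₀, key', key']

/-- The Atkin–Lehner involution as a ring automorphism of `F_{Nℓ}`; it exchanges the two
degeneracy maps. -/
theorem exists_atkinLehner_equiv (hℓ : ℓ.Prime) (hℓN : ¬ ℓ ∣ N) :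
    ∃ w : FF (N * ℓ) ≃+* FF (N * ℓ),
      (∀ f, w (w f) = f) ∧
      (∀ a : Kbar, w (algebraMap Kbar (FF (N * ℓ)) a) = algebraMap Kbar (FF (N * ℓ)) a) ∧
      (∀ e : (N * ℓ).divisors, w (jF (N * ℓ) e) = jF (N * ℓ) (swapDiv N ℓ e)) ∧
      (∀ c : FF N, w (heckeAlphaBar Kbar N ℓ c) = heckeBetaBar Kbar N ℓ c) ∧
      (∀ c : FF N, w (heckeBetaBar Kbar N ℓ c) = heckeAlphaBar Kbar N ℓ c) := by
  obtain ⟨w, hww, hK, hj⟩ := exists_atkinLehner N ℓ hℓ hℓN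
  have h1 : w.comp ((heckeAlphaBar Kbar N ℓ : FF N →ₐ[Kbar] FF (N * ℓ)) : FF N →+* FF (N * ℓ))
      = ((heckeBetaBar Kbar N ℓ : FF N →ₐ[Kbar] FF (N * ℓ)) : FF N →+* FF (N * ℓ)) := by
    apply ringHom_ext_FF
    · intro a
      show w (heckeAlphaBar Kbar N ℓ (algebraMap Kbar (FF N) a))
        = heckeBetaBar Kbar N ℓ (algebraMap Kbar (FF N) a)
      rw [AlgHom.commutes, AlgHom.commutes, hK]
    · intro d
      show w (heckeAlphaBar Kbar N ℓ (jF N d)) = heckeBetaBar Kbar N ℓ (jF N d)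
      rw [heckeAlphaBar_jF, heckeBetaBar_jF, hj, swapDiv_incDiv N ℓ hℓ hℓN]
  have h1' : ∀ c : FF N, w (heckeAlphaBar Kbar N ℓ c) = heckeBetaBar Kbar N ℓ c :=
    fun c => RingHom.congr_fun h1 c
  refine ⟨{ w with invFun := w, left_inv := hww, right_inv := hww }, hww, hK, hj, h1', ?_⟩
  intro c
  show w (heckeBetaBar Kbar N ℓ c) = heckeAlphaBar Kbar N ℓ c
  rw [← h1', hww]

/-- `N_α(β c) = N_β(α c)`. -/
theorem norm_alpha_beta_eq (hℓ : ℓ.Prime) (hℓN : ¬ ℓ ∣ N) (c : FF N) :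
    (letI := algebraAlong (heckeAlphaBar Kbar N ℓ)
     Algebra.norm (FF N) (heckeBetaBar Kbar N ℓ c)) =
    (letI := algebraAlong (heckeBetaBar Kbar N ℓ)
     Algebra.norm (FF N) (heckeAlphaBar Kbar N ℓ c)) := by
  obtain ⟨w, -, -, -, hα, hβ⟩ := exists_atkinLehner_equiv N ℓ hℓ hℓN
  have he : (@algebraMap (FF N) (FF (N * ℓ)) _ _ (algebraAlong (heckeAlphaBar Kbar N ℓ))).comp
        ((RingEquiv.refl (FF N) : FF N ≃+* FF N) : FF N →+* FF N)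
      = (w : FF (N * ℓ) →+* FF (N * ℓ)).comp
        (@algebraMap (FF N) (FF (N * ℓ)) _ _ (algebraAlong (heckeBetaBar Kbar N ℓ))) := by
    apply RingHom.ext
    intro c
    exact (hβ c).symm
  have := @Algebra.norm_eq_of_equiv_equiv (FF N) (FF (N * ℓ)) (FF N) (FF (N * ℓ)) _ _ _ _
    (algebraAlong (heckeBetaBar Kbar N ℓ)) (algebraAlong (heckeAlphaBar Kbar N ℓ))
    (RingEquiv.refl (FF N)) w he (heckeAlphaBar Kbar N ℓ c)
  rw [hα] at this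
  exact this.symm

end Fermat.Agent.S29.H64
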